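import Fermat.Agent.GrossRegulator.Valuation
import Fermat.Agent.PadicClassNumber.Algebraic
import Fermat.Agent.PadicDirichletL.Derivative
import Mathlib.FieldTheory.Galois.Infinite
import Mathlib.NumberTheory.NumberField.Cyclotomic.Galois

/-!
# The Gauss sum element of `ℚ(ζ_f)`

For `p ∤ f` and `e` the order of `p` modulo `f` there is an integral `x` in `ℚ(ζ_f)` with
`x x̄ = (p^e)^f` whose conjugate under `σ_c` has at `ι` the logarithm `f ∑ log Γ_p(c p^i / f)` and
the order `∑ (c p^i)`, representatives in `[0, f)`: the `f`-th power of a Gauss sum.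
-/

set_option autoImplicit false
set_option linter.unusedSectionVars false
set_option linter.style.haveILetI false

noncomputable section

open Finset FA.GrossKoblitz FA.DworkRationality FA.Brumer
open FA.GrossRegulator (digitSum orbitGamma gammaExp fracArg Near iwasawaLog norm_prime_zpow
  prime_zpow_injective norm_eq_one_of_disc exists_near_one)
open FA.PadicClassNumber (AlgNum toPadic)
open FA.PadicDirichletL (logGamma)
open scoped Classical

namespace FA.GrossStark

variable {p : ℕ} [hp : Fact p.Prime]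

variable (p) in
/-- The order of an algebraic number: `‖y‖ = p ^ (-pOrd y)`. -/
def pOrd (y : ℂ_[p]) : ℚ :=
  if h : ∃ x : ℕ × ℤ, Near y x.1 x.2 then -(h.choose.2 : ℚ) / (h.choose.1 : ℚ) else 0

theorem norm_pow_of_near {y : ℂ_[p]} {a : ℕ} {b : ℤ} (h : Near y a b) :
    ‖y‖ ^ a = (p : ℝ) ^ b := by
  have h1 := norm_eq_one_of_disc h.2
  rw [norm_mul, norm_pow, norm_prime_zpow, zpow_neg] at h1
  exact (div_eq_one_iff_eq (zpow_ne_zero _ (Nat.cast_ne_zero.2 hp.out.ne_zero))).1 h1

theorem pOrd_eq {y : ℂ_[p]} {a : ℕ} {b : ℤ} (h : Near y a b) : pOrd p y = -(b : ℚ) / (a : ℚ) := by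
  have hex : ∃ x : ℕ × ℤ, Near y x.1 x.2 := ⟨(a, b), h⟩
  rw [pOrd, dif_pos hex]
  have h1 := norm_pow_of_near hex.choose_spec
  have h2 := norm_pow_of_near h
  set a' := hex.choose.1
  set b' := hex.choose.2
  have hb : b' * (a : ℤ) = b * (a' : ℤ) :=
    zpow_right_injective₀ (show (0 : ℝ) < p by exact_mod_cast hp.out.pos)
      (by exact_mod_cast hp.out.ne_one)
      (show (p : ℝ) ^ (b' * (a : ℤ)) = (p : ℝ) ^ (b * (a' : ℤ)) by
        rw [zpow_mul, zpow_mul, ← h1, ← h2, zpow_natCast, zpow_natCast, ← pow_mul, ← pow_mul,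
          mul_comm a'])
  rw [div_eq_div_iff (Nat.cast_ne_zero.2 hex.choose_spec.1.ne') (Nat.cast_ne_zero.2 h.1.ne'),
    neg_mul, neg_mul, neg_inj]
  exact_mod_cast hb

/-- The norm gives the order. -/
theorem pOrd_eq_of_norm {y : ℂ_[p]} (halg : IsAlgebraic ℚ y) {k : ℚ}
    (h : ‖y‖ = (p : ℝ) ^ (-(k : ℝ))) : pOrd p y = k := by
  have hp0 : (0 : ℝ) < p := Nat.cast_pos.2 hp.out.pos
  have hy : y ≠ 0 := fun e => by
    rw [e, norm_zero] at h
    exact (Real.rpow_pos_of_pos hp0 _).ne h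
  obtain ⟨a, b, hab⟩ := exists_near_one hy halg
  have h1 := norm_pow_of_near hab
  rw [h, ← Real.rpow_natCast, ← Real.rpow_mul hp0.le, ← Real.rpow_intCast] at h1
  have h2 := congrArg (Real.logb p) h1
  rw [Real.logb_rpow hp0 (by exact_mod_cast hp.out.ne_one),
    Real.logb_rpow hp0 (by exact_mod_cast hp.out.ne_one)] at h2
  rw [pOrd_eq hab, div_eq_iff (Nat.cast_ne_zero.2 hab.1.ne')]
  have h3 : ((-(b : ℚ) : ℚ) : ℝ) = ((k * (a : ℚ) : ℚ) : ℝ) := by
    push_cast
    linarith
  exact_mod_cast h3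

/-- The order gives the norm. -/
theorem norm_eq_pOrd {y : ℂ_[p]} (hy : y ≠ 0) (halg : IsAlgebraic ℚ y) :
    ‖y‖ = (p : ℝ) ^ (-(pOrd p y : ℝ)) := by
  obtain ⟨a, b, hab⟩ := exists_near_one hy halg
  refine (pow_left_inj₀ (norm_nonneg _) (by positivity) hab.1.ne').1 ?_
  rw [norm_pow_of_near hab, pOrd_eq hab, ← Real.rpow_natCast (_ ^ _),
    ← Real.rpow_mul (by positivity),
    ← Real.rpow_intCast]
  congr 1
  have : (a : ℝ) ≠ 0 := Nat.cast_ne_zero.2 hab.1.ne'
  push_cast
  field_simp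

variable {f : ℕ} [NeZero f]

/-- The arguments of an orbit. -/
theorem orbit_eq (hfp : f.Coprime p) {e k : ℕ} (he : e ≠ 0) (hk : f * k = p ^ e - 1)
    (u : (ZMod f)ˣ) (i : ℕ) :
    fracPart p e (k * (u : ZMod f).val) i = fracArg ((u : ZMod f) * (p : ZMod f) ^ i) := by
  refine mul_left_cancel₀ (isUnit_pow_sub_one (p := p) he).ne_zero ?_
  have hmod : k * (u : ZMod f).val * p ^ i % (p ^ e - 1) =
      k * ((u : ZMod f) * (p : ZMod f) ^ i).val := by
    rw [← hk, mul_comm f, mul_assoc, Nat.mul_mod_mul_left, ← ZMod.val_natCast, Nat.cast_mul,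
      Nat.cast_pow, ZMod.natCast_zmod_val]
  rw [sub_one_mul_fracPart he, hmod, ← hk, mul_comm f, fracArg, Nat.cast_mul,
    Nat.cast_mul, mul_left_comm, mul_assoc (k : ℤ_[p]), Ring.mul_inverse_cancel _ (by
      rw [PadicInt.isUnit_iff, PadicInt.norm_natCast_eq_one_iff]
      exact Nat.coprime_comm.1 hfp), mul_one, mul_comm]

/-- **The digit sum of an orbit.** -/
theorem digit_eq {e k : ℕ} (hk : f * k = p ^ e - 1) (hk0 : 0 < k) (u : (ZMod f)ˣ) :
    (p - 1) * ∑ i ∈ range e, ((u : ZMod f) * (p : ZMod f) ^ i).val =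
      f * digitSum p e (k * (u : ZMod f).val) := by
  set n := k * (u : ZMod f).val
  have hn : n < p ^ e - 1 := by
    rw [← hk, mul_comm f]
    exact Nat.mul_lt_mul_of_pos_left (ZMod.val_lt _) hk0
  have hmod : ∀ i, n * p ^ i % (p ^ e - 1) = k * ((u : ZMod f) * (p : ZMod f) ^ i).val :=
      fun i => by
    rw [← hk, mul_comm f, mul_assoc, Nat.mul_mod_mul_left, ← ZMod.val_natCast, Nat.cast_mul,
      Nat.cast_pow, ZMod.natCast_zmod_val]
  have hr : ∑ i ∈ range e, rotateDigits p e n (i + 1) =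
      k * ∑ i ∈ range e, ((u : ZMod f) * (p : ZMod f) ^ i).val := by
    rw [Finset.mul_sum, ← Finset.sum_range_reflect]
    refine sum_congr rfl fun i hi => ?_
    have := mem_range.1 hi
    rw [← rotateDigits_eq_mod hp.out.two_le hn (by omega),
      show e - (e - 1 - i + 1) = i by omega, hmod]
  have hshift : ∑ i ∈ range e, rotateDigits p e n i =
      ∑ i ∈ range e, rotateDigits p e n (i + 1) := by
    have h1 := Finset.sum_range_succ' (fun i => rotateDigits p e n i) e
    have h2 := Finset.sum_range_succ (fun i => rotateDigits p e n i) e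
    rw [rotateDigits_zero] at h1
    rw [rotateDigits_self hp.out.one_le hn] at h2
    omega
  have hsum : ∑ i ∈ range e, (p * rotateDigits p e n (i + 1) + n / p ^ i % p) =
      ∑ i ∈ range e, (rotateDigits p e n i + n / p ^ i % p * p ^ e) :=
    sum_congr rfl fun i hi => rotateDigits_succ (mem_range.1 hi)
  rw [sum_add_distrib, sum_add_distrib, ← Finset.mul_sum, ← Finset.sum_mul, hshift, hr] at hsum
  refine Nat.eq_of_mul_eq_mul_left hk0 ?_
  have hq : p ^ e = f * k + 1 := by
    have := Nat.one_le_pow e p hp.out.pos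
    omega
  rw [hq] at hsum
  show k * ((p - 1) * _) = k * (f * ∑ i ∈ range e, n / p ^ i % p)
  obtain ⟨q, hpq⟩ : ∃ q, p = q + 1 := ⟨p - 1, (Nat.sub_add_cancel hp.out.one_le).symm⟩
  have hq' : p - 1 = q := by omega
  generalize ∑ i ∈ range e, ((u : ZMod f) * (p : ZMod f) ^ i).val = X at hsum ⊢
  generalize ∑ i ∈ range e, n / p ^ i % p = Y at hsum ⊢
  rw [hpq] at hsum
  rw [hq']
  linarith

/-- Integrality is seen after an injective homomorphism. -/
theorem isIntegral_of_map {A B : Type} [CommRing A] [CommRing B] [Algebra ℤ A]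
    [Algebra ℤ B] (j : A →+* B)
    (hj : Function.Injective j) {x : A} (h : IsIntegral ℤ (j x)) : IsIntegral ℤ x := by
  obtain ⟨P, hm, hP⟩ := h
  refine ⟨P, hm, hj ?_⟩
  rw [Polynomial.hom_eval₂, map_zero, RingHom.ext_int (j.comp _) (algebraMap ℤ B)]
  exact hP

/-- The `f`-th power of a Gauss sum moves with the character. -/
theorem gauss_conj {F : Type} [Field F] [Fintype F] [Algebra (ZMod p) F] {L : Type} [Field L]
    {ξ : L} (hξ : IsPrimitiveRoot ξ p) (χ : MulChar F L) (hχ : χ ^ f = 1) (τ : L →+* L) (c : ℕ)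
    (hτ : ∀ x, τ (χ x) = (χ ^ c) x) :
    τ (gaussSum χ ((AddChar.zmodChar p hξ.pow_eq_one).compAddMonoidHom
        (Algebra.trace (ZMod p) F).toAddMonoidHom)) ^ f =
      gaussSum (χ ^ c) ((AddChar.zmodChar p hξ.pow_eq_one).compAddMonoidHom
        (Algebra.trace (ZMod p) F).toAddMonoidHom) ^ f := by
  haveI : NeZero p := ⟨hp.out.ne_zero⟩
  set ψ := (AddChar.zmodChar p hξ.pow_eq_one).compAddMonoidHom
    (Algebra.trace (ZMod p) F).toAddMonoidHom with hψ
  have hξ' : IsPrimitiveRoot (τ ξ) p := hξ.map_of_injective τ.injective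
  obtain ⟨b, hb, hbeq⟩ := hξ.eq_pow_of_pow_eq_one hξ'.pow_eq_one
  have hb0 : (b : ZMod p) ≠ 0 := fun h => by
    have := Nat.eq_zero_of_dvd_of_lt ((ZMod.natCast_eq_zero_iff b p).1 h) hb
    rw [this, pow_zero] at hbeq
    exact hξ'.ne_one hp.out.one_lt hbeq.symm
  set w : F := algebraMap (ZMod p) F (b : ZMod p)
  have hw : w ≠ 0 := (map_ne_zero _).2 hb0
  have hψτ : ∀ x, τ (ψ x) = (ψ.mulShift w) x := fun x => by
    rw [AddChar.mulShift_apply, hψ, AddChar.compAddMonoidHom_apply, AddChar.compAddMonoidHom_apply,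
      AddChar.zmodChar_apply, map_pow, ← hbeq, ← pow_mul]
    have htr : Algebra.trace (ZMod p) F (w * x) = (b : ZMod p) * Algebra.trace (ZMod p) F x := by
      rw [show w * x = (b : ZMod p) • x from (Algebra.smul_def _ _).symm, map_smul, smul_eq_mul]
    simp only [LinearMap.toAddMonoidHom_coe]
    rw [htr, ← AddChar.zmodChar_apply' hξ.pow_eq_one, Nat.cast_mul, ZMod.natCast_zmod_val]
  have h : τ (gaussSum χ ψ) = gaussSum (χ ^ c) (ψ.mulShift (Units.mk0 w hw : F)) := by
    rw [Units.val_mk0]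
    simp only [gaussSum, map_sum, map_mul, hτ, hψτ]
  rw [h, gaussSum_mulShift_eq, mul_pow, ← MulChar.pow_apply_coe, inv_pow, ← pow_mul, mul_comm c,
    pow_mul, hχ, one_pow, inv_one, MulChar.one_apply_coe, one_mul]

variable {K : Type} [Field K] [NumberField K] [IsCyclotomicExtension {f} ℚ K]

variable (f K) in
/-- The automorphism `ζ ↦ ζ ^ c`. -/
def sig (c : (ZMod f)ˣ) : Gal(K/ℚ) := (IsCyclotomicExtension.Rat.galEquivZMod f K).symm c

/-- **The element.** -/
theorem exists_gauss_element (hfp : f.Coprime p) (hf : 1 < f) (ι : K →+* ℂ_[p]) :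
    ∃ x : K, x ≠ 0 ∧ IsIntegral ℤ x ∧
      x * sig f K (-1) x = (((p ^ orderOf (p : ZMod f)) ^ f : ℕ) : K) ∧
      ∀ c : (ZMod f)ˣ,
        iwasawaLog p (ι (sig f K c x)) = (f : ℂ_[p]) * ∑ i ∈ range (orderOf (p : ZMod f)),
          logGamma (fracArg ((c : ZMod f) * (p : ZMod f) ^ i)) ∧
        pOrd p (ι (sig f K c x)) =
          ∑ i ∈ range (orderOf (p : ZMod f)),
            ((((c : ZMod f) * (p : ZMod f) ^ i).val : ℕ) : ℚ) := by
  haveI : Fact (1 < f) := ⟨hf⟩
  set e := orderOf (p : ZMod f) with he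
  have he0 : e ≠ 0 := by
    obtain ⟨w, hw⟩ := (ZMod.isUnit_iff_coprime p f).2 (Nat.coprime_comm.1 hfp)
    rw [he, ← hw, orderOf_units]
    exact (orderOf_pos w).ne'
  obtain ⟨k, hk⟩ : f ∣ p ^ e - 1 := by
    rw [← ZMod.natCast_eq_zero_iff, Nat.cast_sub (Nat.one_le_pow _ _ hp.out.pos), Nat.cast_pow, he,
      pow_orderOf_eq_one, Nat.cast_one, sub_self]
  have hk0 : 0 < k := Nat.pos_of_ne_zero fun h0 => by
    rw [h0, mul_zero] at hk
    have := Nat.one_lt_pow he0 hp.out.one_lt
    omega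
  haveI : Fintype (GaloisField p e) := Fintype.ofFinite _
  set F := GaloisField p e
  have hcard : Fintype.card F = p ^ e := by
    rw [← Nat.card_eq_fintype_card, GaloisField.card p e he0]
  obtain ⟨ω, hω⟩ := FA.Summary.exists_teichmuller_mulChar p F
  -- the character of order dividing `f` with algebraic values
  set χ : MulChar F ℂ_[p] := ω⁻¹ ^ k
  have hχf : χ ^ f = 1 := MulChar.ext fun u => by
    have hu : u ^ (p ^ e - 1) = 1 := by
      rw [← hcard, ← Fintype.card_units]
      exact pow_card_eq_one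
    rw [← pow_mul, mul_comm, ← hk, MulChar.pow_apply_coe, ← map_pow, ← Units.val_pow_eq_pow_val,
      hu, Units.val_one, MulChar.map_one, MulChar.one_apply_coe]
  have hχint : ∀ x : F, IsIntegral ℤ (χ x) := fun x => by
    by_cases hx : x = 0
    · rw [hx, MulChar.map_zero]
      exact isIntegral_zero
    · refine IsIntegral.of_pow (NeZero.pos f) ?_
      rw [← Units.val_mk0 hx, ← MulChar.pow_apply_coe, hχf, MulChar.one_apply_coe]
      exact isIntegral_one
  let χA : MulChar F (AlgNum p) :=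
    { toFun := fun x => ⟨χ x, mem_algebraicClosure_iff.2 (hχint x).tower_top.isAlgebraic⟩
      map_one' := Subtype.ext (MulChar.map_one χ)
      map_mul' := fun x y => Subtype.ext (map_mul χ x y)
      map_nonunit' := fun x hx => Subtype.ext (χ.map_nonunit hx) }
  have hχAf : χA ^ f = 1 := MulChar.ext fun u => Subtype.ext (by
    rw [MulChar.pow_apply_coe, SubmonoidClass.coe_pow, MulChar.one_apply_coe]
    show χ u ^ f = _
    rw [← MulChar.pow_apply_coe, hχf, MulChar.one_apply_coe]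
    rfl)
  have hξint : IsIntegral ℤ (dworkRoot p) :=
    IsIntegral.of_pow hp.out.pos (by rw [dworkRoot_pow]; exact isIntegral_one)
  set ξ : AlgNum p := ⟨dworkRoot p, mem_algebraicClosure_iff.2 hξint.tower_top.isAlgebraic⟩
  have hξ : IsPrimitiveRoot ξ p :=
    IsPrimitiveRoot.of_map_of_injective (f := toPadic p) dworkRoot_spec (toPadic p).injective
  haveI : NeZero p := ⟨hp.out.ne_zero⟩
  set ψA := (AddChar.zmodChar p hξ.pow_eq_one).compAddMonoidHom
    (Algebra.trace (ZMod p) F).toAddMonoidHom with hψA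
  set G : ℕ → AlgNum p := fun c => gaussSum (χA ^ c) ψA ^ f with hG
  -- the field
  obtain ⟨κ, hκ⟩ : ∃ κ : K →ₐ[ℚ] AlgNum p, ∀ x, toPadic p (κ x) = ι x :=
    ⟨(AlgHom.codRestrict ι.toRatAlgHom (AlgNum p).toSubalgebra fun x =>
      mem_algebraicClosure_iff.2 (FA.GrossRegulator.isAlgebraic_map ι x)), fun x => rfl⟩
  have hζ := IsCyclotomicExtension.zeta_spec f ℚ K
  set ζ := IsCyclotomicExtension.zeta f ℚ K
  have hη : IsPrimitiveRoot (κ ζ) f := hζ.map_of_injective κ.injective
  -- values are powers of `κ ζ`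
  have hval : ∀ (τ : AlgNum p →+* AlgNum p) (c : ℕ), 0 < c → τ (κ ζ) = κ ζ ^ c →
      ∀ x, τ (χA x) = (χA ^ c) x := fun τ c hc hτ x => by
    by_cases hx : x = 0
    · rw [hx, MulChar.map_zero, map_zero, MulChar.map_zero]
    · rw [← Units.val_mk0 hx, MulChar.pow_apply_coe]
      obtain ⟨j, -, hj⟩ := hη.eq_pow_of_pow_eq_one (by
        rw [← MulChar.pow_apply_coe, hχAf, MulChar.one_apply_coe] :
          χA (Units.mk0 x hx : Fˣ) ^ f = 1)
      rw [← hj, map_pow, hτ, ← pow_mul, ← pow_mul, mul_comm]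
  have hmove : ∀ (τ : AlgNum p →+* AlgNum p) (c : ℕ), 0 < c → τ (κ ζ) = κ ζ ^ c →
      τ (G 1) = G c := fun τ c hc hτ => by
    simp only [hG, map_pow, pow_one]
    exact gauss_conj hξ χA hχAf τ c (hval τ c hc hτ)
  haveI : IsAlgClosure ℚ (AlgNum p) :=
    ⟨(algebraicClosure.isAlgClosure ℚ ℂ_[p]).isAlgClosed, inferInstance⟩
  haveI : IsGalois ℚ (AlgNum p) := IsAlgClosure.isGalois ℚ (AlgNum p)
  obtain ⟨x, hx⟩ : ∃ x, κ x = G 1 := by
    suffices h : G 1 ∈ κ.fieldRange from h
    rw [← InfiniteGalois.fixedField_fixingSubgroup κ.fieldRange]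
    intro τ
    exact hmove ((τ : AlgNum p ≃ₐ[ℚ] AlgNum p) : AlgNum p →+* AlgNum p) 1 one_pos (by
      rw [pow_one]
      exact (IntermediateField.mem_fixingSubgroup_iff _ _).1 τ.2 _ ⟨ζ, rfl⟩)
  have hconj : ∀ c : (ZMod f)ˣ, κ (sig f K c x) = G (c : ZMod f).val := fun c => by
    letI : Algebra K (AlgNum p) := κ.toRingHom.toAlgebra
    haveI : IsScalarTower ℚ K (AlgNum p) := IsScalarTower.of_algebraMap_eq fun r =>
      (κ.commutes r).symm
    have hcomm := fun y : K => AlgEquiv.liftNormal_commutes (sig f K c) (AlgNum p) y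
    have hpow : sig f K c ζ = ζ ^ (c : ZMod f).val := by
      rw [IsCyclotomicExtension.Rat.galEquivZMod_apply_of_pow_eq f K (sig f K c) hζ.pow_eq_one,
        sig, MulEquiv.apply_symm_apply]
    refine (hcomm x).symm.trans ?_
    rw [show algebraMap K (AlgNum p) x = G 1 from hx]
    refine hmove ((AlgEquiv.liftNormal (sig f K c) (AlgNum p) : AlgNum p ≃ₐ[ℚ] AlgNum p) :
      AlgNum p →+* AlgNum p) _ (Nat.pos_of_ne_zero fun h0 => c.ne_zero ((ZMod.val_eq_zero _).1 h0))
      ?_
    refine (hcomm ζ).trans ?_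
    rw [hpow]
    exact map_pow κ _ _
  -- Gross and Koblitz
  set n : (ZMod f)ˣ → ℕ := fun c => k * (c : ZMod f).val
  have hn : ∀ c, n c < p ^ e - 1 := fun c => by
    rw [hk, mul_comm f]
    exact Nat.mul_lt_mul_of_pos_left (ZMod.val_lt _) hk0
  set g : (ZMod f)ˣ → ℂ_[p] := fun c => -toPadic p (gaussSum (χA ^ (c : ZMod f).val) ψA)
  have hg : ∀ c, g c = dworkPi p ^ digitSum p e (n c) * orbitGamma p e (n c) := fun c => by
    refine Eq.trans ?_ (grossKoblitz_field (p := p) F hcard ω hω (hn c))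
    simp only [g, gaussSum, map_sum, map_mul]
    congr 1
    refine sum_congr rfl fun y _ => ?_
    congr 1
    by_cases hy : y = 0
    · rw [hy, MulChar.map_zero, map_zero, MulChar.map_zero]
    · rw [← Units.val_mk0 hy, MulChar.pow_apply_coe, map_pow]
      show χ _ ^ _ = _
      rw [← MulChar.pow_apply_coe, ← pow_mul]
  have hgx : ∀ c, ι (sig f K c x) = (-1) ^ f * g c ^ f := fun c => by
    rw [← hκ, hconj, hG]
    simp only [g, map_pow, ← mul_pow, neg_mul_neg, one_mul]
  have hfin : ∀ y : F, IsIntegral ℤ (χA y) := fun y =>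
    isIntegral_of_map (toPadic p) (toPadic p).injective (hχint y)
  have hG0 : ∀ c, g c ≠ 0 := fun c => by
    rw [hg]
    refine mul_ne_zero (pow_ne_zero _ dworkPi_ne_zero) (norm_ne_zero_iff.1 ?_)
    rw [FA.GrossRegulator.norm_orbitGamma]
    exact one_ne_zero
  refine ⟨x, fun h0 => ?_, ?_, ?_, fun c => ?_⟩
  · have h1 := hgx 1
    rw [h0, map_zero, map_zero] at h1
    exact mul_ne_zero (pow_ne_zero _ (neg_ne_zero.2 one_ne_zero)) (pow_ne_zero _ (hG0 1)) h1.symm
  · refine isIntegral_of_map κ.toRingHom κ.toRingHom.injective ?_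
    show IsIntegral ℤ (κ x)
    rw [hx, hG]
    simp only [pow_one]
    refine (IsIntegral.sum _ fun y _ => (hfin y).mul ?_).pow f
    rw [hψA, AddChar.compAddMonoidHom_apply, AddChar.zmodChar_apply]
    exact (isIntegral_of_map (toPadic p) (toPadic p).injective hξint).pow _
  · refine κ.toRingHom.injective ?_
    show κ _ = κ _
    rw [map_mul, hconj, hx, map_natCast, hG]
    simp only [pow_one]
    have hval1 : ((-1 : (ZMod f)ˣ) : ZMod f).val + 1 = f := by
      rw [Units.val_neg, Units.val_one, ← Nat.succ_pred_eq_of_pos (NeZero.pos f)]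
      exact congrArg (· + 1) (ZMod.val_neg_one _)
    have hinv : χA ^ ((-1 : (ZMod f)ˣ) : ZMod f).val = χA⁻¹ :=
      eq_inv_of_mul_eq_one_left (by rw [← pow_succ, hval1, hχAf])
    have hne : χA ≠ 1 := fun h => by
      obtain ⟨u, hu⟩ := IsCyclic.exists_generator (α := Fˣ)
      have h1 : χ u = 1 := by
        have := congrArg (fun t : MulChar F (AlgNum p) => ((t u : AlgNum p) : ℂ_[p])) h
        simp only [MulChar.one_apply_coe, OneMemClass.coe_one] at this
        exact this
      have hk' : k < p ^ e - 1 := by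
        rw [hk]
        exact lt_mul_of_one_lt_left hk0 hf
      rw [MulChar.pow_apply_coe, MulChar.inv_apply', ← Units.val_inv_eq_inv_val, ← map_pow,
        ← Units.val_pow_eq_pow_val] at h1
      set v := u⁻¹ ^ k
      have hv : v = 1 := by
        by_contra hne
        have h0 : ((v : F) - 1) ≠ 0 := sub_ne_zero.2 fun e0 => hne (Units.ext e0)
        have h2 := hω ((v : F) - 1) 1
        rw [sub_add_cancel, h1, MulChar.map_one, sub_sub_cancel_left, norm_neg] at h2
        have h3 : ω ((v : F) - 1) ^ (Fintype.card F - 1) = 1 := by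
          rw [← map_pow, FiniteField.pow_card_sub_one_eq_one _ h0, MulChar.map_one]
        have h4 := congrArg (‖·‖) h3
        simp only [norm_pow, norm_one] at h4
        exact absurd h4 (pow_lt_one₀ (norm_nonneg _) h2
          (Nat.sub_pos_of_lt Fintype.one_lt_card).ne').ne
      have h5 : orderOf u ∣ k := orderOf_dvd_of_pow_eq_one (by
        rw [← inv_inv (u ^ k), ← inv_pow]
        show v⁻¹ = 1
        rw [hv, inv_one])
      rw [orderOf_eq_card_of_forall_mem_zpowers hu, Nat.card_eq_fintype_card, Fintype.card_units,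
        hcard] at h5
      exact absurd (Nat.le_of_dvd hk0 h5) (not_le.2 hk')
    have hψ1 : ψA ≠ 1 := fun h => by
      obtain ⟨y, hy⟩ := Algebra.trace_surjective (ZMod p) F 1
      have h1 := congrArg (fun t : AddChar F (AlgNum p) => t y) h
      simp only [hψA, AddChar.compAddMonoidHom_apply, LinearMap.toAddMonoidHom_coe, hy,
        AddChar.zmodChar_apply, AddChar.one_apply, ZMod.val_one, pow_one] at h1
      exact hξ.ne_one hp.out.one_lt h1
    have hkey := gaussSum_mul_gaussSum_eq_card hne (AddChar.IsPrimitive.of_ne_one hψ1)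
    rw [← AddChar.mulShift_one ψA, show (ψA.mulShift 1)⁻¹ = ψA.mulShift ((-1 : Fˣ) : F) from
      DFunLike.ext _ _ fun y => by simp [AddChar.inv_apply],
      gaussSum_mulShift_eq, AddChar.mulShift_one, hcard] at hkey
    rw [hinv, Nat.cast_pow, ← hkey, mul_pow (gaussSum χA ψA), mul_pow, inv_inv,
      ← MulChar.pow_apply_coe, hχAf, MulChar.one_apply_coe, one_mul]
  · set S := digitSum p e (n c)
    set P := orbitGamma p e (n c)
    set M := gammaExp p
    have hM : 0 < M := FA.GrossRegulator.gammaExp_pos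
    have hPd : ‖P ^ M - 1‖ ≤ rad p ∧ plog p (P ^ M) = ∑ i ∈ range e,
        plog p (padicGamma p (fracArg ((c : ZMod f) * (p : ZMod f) ^ i)) ^ M) := by
      have hP : P = ∏ i ∈ range e, padicGamma p (fracArg ((c : ZMod f) * (p : ZMod f) ^ i)) :=
        prod_congr rfl fun i _ => by rw [orbit_eq hfp he0 hk.symm c i]
      rw [hP, ← prod_pow]
      exact FA.GrossRegulator.plog_prod _ _ fun i _ =>
        FA.GrossRegulator.norm_gamma_pow_sub_one_le _
    set a := 2 * (p - 1) * M with ha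
    set b : ℤ := -((2 * S * f * M : ℕ) : ℤ) with hb
    have hz : ι (sig f K c x) ^ a * (p : ℂ_[p]) ^ b = (P ^ M) ^ (2 * f * (p - 1)) := by
      have h1 : ((-1 : ℂ_[p]) ^ f) ^ a = 1 := by
        rw [← pow_mul]
        exact Even.neg_one_pow ⟨f * ((p - 1) * M), by rw [ha]; ring⟩
      have h2 : (g c ^ f) ^ a = (p : ℂ_[p]) ^ (2 * S * f * M) * (P ^ M) ^ (2 * f * (p - 1)) := by
        rw [hg, mul_pow, mul_pow, ← pow_mul, ← pow_mul, ← pow_mul, ← pow_mul,
          show S * (f * a) = (p - 1) * (2 * (S * f * M)) by rw [ha]; ring, pow_mul, dworkPi_pow,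
          pow_mul, neg_sq, ← pow_mul,
          show f * a = M * (2 * f * (p - 1)) by rw [ha]; ring, mul_assoc 2 S, mul_assoc 2 (S * f),
          mul_assoc S]
      rw [hgx, mul_pow, h1, one_mul, h2, hb, zpow_neg, zpow_natCast, mul_comm, ← mul_assoc,
        inv_mul_cancel₀ (pow_ne_zero _ natCast_prime_ne_zero), one_mul]
    obtain ⟨hd, he'⟩ := FA.GrossRegulator.plog_pow hPd.1 (2 * f * (p - 1))
    have hnear : Near (ι (sig f K c x)) a b :=
      ⟨Nat.mul_pos (Nat.mul_pos two_pos (Nat.sub_pos_of_lt hp.out.one_lt)) hM, hz ▸ hd⟩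
    have hp1 : ((p - 1 : ℕ) : ℂ_[p]) ≠ 0 :=
      Nat.cast_ne_zero.2 (Nat.sub_pos_of_lt hp.out.one_lt).ne'
    refine ⟨?_, ?_⟩
    · rw [FA.GrossRegulator.iwasawaLog_eq hnear, hz, he', hPd.2]
      simp only [FA.PadicDirichletL.logGamma_eq, ← sum_div]
      rw [ha, Nat.cast_mul, Nat.cast_mul, Nat.cast_mul, Nat.cast_mul, Nat.cast_ofNat]
      field_simp
      rfl
    · have hd' := digit_eq hk.symm hk0 c
      have hp1' : ((p - 1 : ℕ) : ℚ) ≠ 0 :=
        Nat.cast_ne_zero.2 (Nat.sub_pos_of_lt hp.out.one_lt).ne'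
      have hM' : ((M : ℕ) : ℚ) ≠ 0 := Nat.cast_ne_zero.2 hM.ne'
      rw [pOrd_eq hnear, ha, hb, Int.cast_neg, neg_neg, Int.cast_natCast]
      have hd'' := congrArg (fun t : ℕ => (t : ℚ)) hd'
      simp only [Nat.cast_mul, Nat.cast_sum] at hd''
      rw [Nat.cast_mul, Nat.cast_mul, Nat.cast_mul, Nat.cast_mul, Nat.cast_mul, Nat.cast_ofNat,
        div_eq_iff (by positivity)]
      linear_combination -(2 * (M : ℚ)) * hd''

end FA.GrossStark
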