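import Fermat.Agent.GrossStark.Proportional
import Mathlib.NumberTheory.NumberField.Cyclotomic.Basic

/-!
# Gross's formula for the derivative at a trivial zero

For `χ` primitive and odd modulo `f`, `p ∤ f`, `χ(p) = 1`, and a minus `p`-unit `u` of `ℚ(ζ_f)` the
derivative at `0` of the branch `χ ω` times `∑ χ(c) ord ι σ_c u` is
`-(p - 1) B_{1,χ} ∑ χ(c) log ι σ_c u` (`deriv_mul_ordSum`): true for the unit from the Gauss sum by
Gross and Koblitz, so for all.
-/

set_option autoImplicit false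
set_option linter.unusedSectionVars false
set_option linter.style.haveILetI false

noncomputable section

open NumberField Finset
open FA.GrossRegulator (gAct gAct_mul logHom conjQ conjQ_apply minusPUnits iwasawaLog fracArg)
open FA.PadicDirichletL (derivAtZero bernChar logGamma)
open scoped Classical IsMulCommutative

namespace FA.GrossStark

variable {p : ℕ} [hp : Fact p.Prime] {f : ℕ} [NeZero f] (K : Type) [Field K] [NumberField K]
  [IsCyclotomicExtension {f} ℚ K]

/-- The character on the Galois group. -/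
def galChar (χ : DirichletCharacter ℂ_[p] f) : Gal(K/ℚ) →* ℂ_[p] :=
  (χ.toMonoidHom.comp (Units.coeHom (ZMod f))).comp
    (IsCyclotomicExtension.Rat.galEquivZMod f K).toMonoidHom

theorem galChar_apply (χ : DirichletCharacter ℂ_[p] f) (σ : Gal(K/ℚ)) :
    galChar K χ σ = χ (IsCyclotomicExtension.Rat.galEquivZMod f K σ : ZMod f) := rfl

theorem galChar_sig (χ : DirichletCharacter ℂ_[p] f) (c : (ZMod f)ˣ) :
    galChar K χ (sig f K c) = χ (c : ZMod f) := by
  rw [galChar_apply, sig, MulEquiv.apply_symm_apply]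

/-- The sum over the units. -/
theorem charPart_galChar (χ : DirichletCharacter ℂ_[p] f) (Φ : Additive Kˣ →+ ℂ_[p]) (u : Kˣ) :
    charPart (galChar K χ) Φ u =
      ∑ c : (ZMod f)ˣ, χ (c : ZMod f) * Φ (Additive.ofMul (gAct (sig f K c) u)) := by
  rw [charPart]
  refine (Fintype.sum_equiv (IsCyclotomicExtension.Rat.galEquivZMod f K).toEquiv _ _ fun σ => ?_)
  show _ = χ _ * Φ (Additive.ofMul (gAct ((IsCyclotomicExtension.Rat.galEquivZMod f K).symm
    ((IsCyclotomicExtension.Rat.galEquivZMod f K) σ)) u))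
  rw [MulEquiv.symm_apply_apply]
  rfl

/-- Complex conjugation is `σ_{-1}`. -/
theorem conjQ_eq_sig [IsCMField K] : conjQ K = sig f K (-1) := by
  have hζ := IsCyclotomicExtension.zeta_spec f ℚ K
  set ζ := IsCyclotomicExtension.zeta f ℚ K
  obtain ⟨φ⟩ : Nonempty (K →+* ℂ) := inferInstance
  have h : (conjQ K).toAlgHom = (sig f K (-1)).toAlgHom := (hζ.powerBasis ℚ).algHom_ext (by
    rw [hζ.powerBasis_gen ℚ]
    show conjQ K ζ = sig f K (-1) ζ
    refine φ.injective ?_
    rw [conjQ_apply, IsCMField.complexEmbedding_complexConj,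
      IsCyclotomicExtension.Rat.galEquivZMod_apply_of_pow_eq f K (sig f K (-1)) hζ.pow_eq_one,
      sig, MulEquiv.apply_symm_apply, map_pow]
    have hz : φ ζ ^ f = 1 := by rw [← map_pow, hζ.pow_eq_one, map_one]
    have hz1 : ‖φ ζ‖ = 1 := (pow_eq_one_iff_of_nonneg (norm_nonneg _) (NeZero.ne f)).1
      (by rw [← norm_pow, hz, norm_one])
    obtain ⟨j, hj⟩ : f ∣ ((-1 : (ZMod f)ˣ) : ZMod f).val + 1 := by
      rw [← ZMod.natCast_eq_zero_iff, Nat.cast_add, Nat.cast_one, ZMod.natCast_zmod_val,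
        Units.val_neg, Units.val_one, neg_add_cancel]
    rw [← Complex.inv_eq_conj hz1]
    exact (eq_inv_of_mul_eq_one_left (by rw [← pow_succ, hj, pow_mul, hz, one_pow])).symm)
  exact AlgEquiv.ext fun x => DFunLike.congr_fun h x

variable {K}

/-- **The formula, and a unit with non-zero sums.** -/
theorem deriv_formula [IsAbelianGalois ℚ K] [IsCMField K] (hfp : f.Coprime p)
    {χ : DirichletCharacter ℂ_[p] f} (hprim : χ.IsPrimitive) (hodd : χ.Odd)
    (hχp : χ (p : ZMod f) = 1) (ι : K →+* ℂ_[p]) :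
    (∀ u ∈ minusPUnits p K, derivAtZero χ * charPart (galChar K χ) (ordHom ι) u =
      -(((p - 1 : ℕ) : ℂ_[p]) * bernChar χ 1 * charPart (galChar K χ) (logHom ι) u)) ∧
    ∃ w ∈ minusPUnits p K, charPart (galChar K χ) (ordHom ι) w ≠ 0 ∧
      charPart (galChar K χ) (logHom ι) w ≠ 0 := by
  have hneg : χ (-1) = -1 := hodd
  have hne : χ ≠ 1 := fun h1 => by
    rw [h1, MulChar.one_apply isUnit_one.neg] at hneg
    exact two_ne_zero (α := ℂ_[p]) (by linear_combination hneg)
  have hf : 1 < f := by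
    by_contra h1
    obtain rfl : f = 1 := le_antisymm (not_lt.1 h1) NeZero.one_le
    rw [Subsingleton.elim (-1 : ZMod 1) 1, map_one] at hneg
    exact two_ne_zero (α := ℂ_[p]) (by linear_combination hneg)
  haveI : Fact (1 < f) := ⟨hf⟩
  obtain ⟨x, hx0, hxint, hxx, hxv⟩ := exists_gauss_element (K := K) hfp hf ι
  set e := orderOf (p : ZMod f)
  set ρ := sig f K (-1)
  set X := Units.mk0 x hx0
  set w := X / gAct ρ X
  have hρ : ∀ y, IsCMField.complexConj K y = ρ y := fun y => by
    rw [← conjQ_apply]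
    exact DFunLike.congr_fun (conjQ_eq_sig K) y
  have hρρ : ρ (ρ x) = x := by rw [← hρ, ← hρ, IsCMField.complexConj_apply_apply]
  have hρ0 : ρ x ≠ 0 := (map_ne_zero ρ).2 hx0
  have hpq : (p : K) ^ (e * f) = x * ρ x := by
    rw [hxx]
    push_cast
    rw [← pow_mul]
  have hwval : (w : K) = x / ρ x := by
    simp only [w, X, Units.val_div_eq_div_val, Units.val_mk0, FA.GrossRegulator.coe_gAct]
  have hw : w ∈ minusPUnits p K := by
    refine ⟨⟨e * f, ?_, ?_⟩, ?_⟩
    · rw [hwval, hpq, show x * ρ x * (x / ρ x) = x * x by field_simp]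
      exact hxint.mul hxint
    · rw [hwval, hpq, inv_div, show x * ρ x * (ρ x / x) = ρ x * ρ x by field_simp]
      exact (hxint.map (ρ : K →ₐ[ℚ] K).toRingHom.toIntAlgHom).mul
        (hxint.map (ρ : K →ₐ[ℚ] K).toRingHom.toIntAlgHom)
    · rw [hwval, map_div₀, hρ, hρ, hρρ]
      field_simp
  have hρc : galChar K χ ρ⁻¹ = -1 := by
    rw [galChar_apply, map_inv, show IsCyclotomicExtension.Rat.galEquivZMod f K ρ = -1 from
      MulEquiv.apply_symm_apply _ _, inv_neg, inv_one, Units.val_neg, Units.val_one, hneg]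
  have htwo : ∀ Φ : Additive Kˣ →+ ℂ_[p],
      charPart (galChar K χ) Φ w = 2 * charPart (galChar K χ) Φ X := fun Φ => by
    rw [charPart_div, charPart_gAct (galChar K χ) Φ ρ X, hρc]
    ring
  obtain ⟨v, hv⟩ : IsUnit (p : ZMod f) :=
    (ZMod.isUnit_iff_coprime p f).2 (Nat.coprime_comm.1 hfp)
  have hshift : ∀ F : ZMod f → ℂ_[p],
      ∑ c : (ZMod f)ˣ, χ (c : ZMod f) * ∑ i ∈ range e, F ((c : ZMod f) * (p : ZMod f) ^ i) =
        (e : ℂ_[p]) * ∑ a : ZMod f, χ a * F a := fun F => by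
    have hunits : ∑ c : (ZMod f)ˣ, χ (c : ZMod f) * F c = ∑ a : ZMod f, χ a * F a :=
      Fintype.sum_of_injective _ Units.val_injective _ _
        (fun a ha => by rw [χ.map_nonunit fun h => ha ⟨h.unit, h.unit_spec⟩, zero_mul]) fun _ => rfl
    rw [← hunits]
    simp only [mul_sum]
    rw [sum_comm]
    refine (sum_congr rfl fun i _ => ?_).trans (by
      rw [sum_const, card_range, nsmul_eq_mul, mul_sum])
    exact Fintype.sum_equiv (Equiv.mulRight (v ^ i)) _ (fun c : (ZMod f)ˣ => χ (c : ZMod f) * F c)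
      fun c => by
        rw [Equiv.coe_mulRight, Units.val_mul, Units.val_pow_eq_pow_val, hv, map_mul, map_pow, hχp,
          one_pow, mul_one]
  have hL : charPart (galChar K χ) (logHom ι) X =
      (f : ℂ_[p]) * ((e : ℂ_[p]) * ∑ r : ZMod f, χ r * logGamma (fracArg r)) := by
    rw [charPart_galChar, ← hshift fun a => logGamma (fracArg a), mul_sum]
    refine sum_congr rfl fun c _ => ?_
    rw [FA.GrossRegulator.logHom_apply, FA.GrossRegulator.coe_gAct, Units.val_mk0, (hxv c).1]
    ring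
  have hB : bernChar χ 1 = (∑ a : ZMod f, χ a * (a.val : ℂ_[p])) / (f : ℂ_[p]) := by
    rw [bernChar, Nat.sub_self, pow_zero, one_mul, sum_div]
    have h0 := MulChar.sum_eq_zero_of_ne_one hne
    rw [← sub_eq_zero, ← sum_sub_distrib]
    have : ∀ a : ZMod f, χ a * (((Polynomial.bernoulli 1).eval ((a.val : ℚ) / f) : ℚ) : ℂ_[p]) -
        χ a * (a.val : ℂ_[p]) / (f : ℂ_[p]) = χ a * (-(1 / 2 : ℂ_[p])) := fun a => by
      rw [Polynomial.bernoulli_one]
      simp only [Polynomial.eval_sub, Polynomial.eval_X, Polynomial.eval_C]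
      push_cast
      ring
    simp only [this, ← sum_mul, h0, zero_mul]
  have hV : charPart (galChar K χ) (ordHom ι) X =
      (e : ℂ_[p]) * ((f : ℂ_[p]) * bernChar χ 1) := by
    rw [hB, mul_div_cancel₀ _ (Nat.cast_ne_zero.2 (NeZero.ne f)), charPart_galChar,
      ← hshift fun a => (a.val : ℂ_[p])]
    refine sum_congr rfl fun c _ => ?_
    rw [ordHom_apply, FA.GrossRegulator.coe_gAct, Units.val_mk0, (hxv c).2, Rat.cast_sum]
    simp only [Rat.cast_natCast]
  have hD : derivAtZero χ =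
      -(((p - 1 : ℕ) : ℂ_[p]) * ∑ r : ZMod f, χ r * logGamma (fracArg r)) := by
    rw [derivAtZero, FA.PadicDirichletL.logDeriv', hχp, sub_self, zero_mul, zero_mul, add_zero]
  have he : (e : ℂ_[p]) ≠ 0 := Nat.cast_ne_zero.2 (by
    rw [show e = orderOf (v : ZMod f) by rw [hv], orderOf_units]
    exact (orderOf_pos v).ne')
  have hf0 : (f : ℂ_[p]) ≠ 0 := Nat.cast_ne_zero.2 (NeZero.ne f)
  have hB0 : bernChar χ 1 ≠ 0 := by
    rw [hB]
    exact div_ne_zero (FA.GrossRegulator.bernoulli_ne_zero_padic hprim hodd) hf0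
  have hVw : charPart (galChar K χ) (ordHom ι) w ≠ 0 := by
    rw [htwo, hV]
    exact mul_ne_zero two_ne_zero (mul_ne_zero he (mul_ne_zero hf0 hB0))
  have hmain : derivAtZero χ * charPart (galChar K χ) (ordHom ι) w =
      -(((p - 1 : ℕ) : ℂ_[p]) * bernChar χ 1 * charPart (galChar K χ) (logHom ι) w) := by
    rw [htwo, htwo, hV, hL, hD]
    ring
  refine ⟨fun u hu => mul_right_cancel₀ hVw ?_, w, hw, hVw, fun h0 => ?_⟩
  · have hx := cross_eq ι (galChar K χ) (logHom ι) (ordHom ι) hu hw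
    linear_combination (charPart (galChar K χ) (ordHom ι) u) * hmain +
      (((p - 1 : ℕ) : ℂ_[p]) * bernChar χ 1) * hx
  · rw [h0, mul_zero, neg_zero] at hmain
    exact hVw ((mul_eq_zero.1 hmain).resolve_left
      (FA.PadicDirichletL.derivAtZero_ne_zero hfp hprim hodd hχp))

end FA.GrossStark
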