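import Fermat.Agent.GrossStark.GaussUnit
import Fermat.Agent.GrossRegulator.Regulator

/-!
# The two functionals on a character part of the minus `p`-units are proportional

For a character of the Galois group of an abelian CM field and homomorphisms `Φ`, `Ψ` on `Kˣ` with
values in `ℂ_p` the sums `∑ χ(σ) Φ(σ u)` of two minus `p`-units satisfy `S_Φ u S_Ψ w = S_Ψ u S_Φ w`
(`cross_eq`): every unit comes from the conjugates of the basic one.
-/

set_option autoImplicit false
set_option linter.unusedSectionVars false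
set_option linter.style.haveILetI false

noncomputable section

open NumberField Finset
open FA.GrossRegulator (gAct gAct_mul Basic nonempty_basic minusPUnits stabSet card_stabSet_pos
  iwasawaLog_mul exists_near)
open scoped Classical IsMulCommutative

namespace FA.GrossStark

variable {p : ℕ} [hp : Fact p.Prime] {K : Type} [Field K] [NumberField K]

/-- The order at `ι`. -/
def ordHom (ι : K →+* ℂ_[p]) : Additive Kˣ →+ ℂ_[p] where
  toFun u := (pOrd p (ι (Additive.toMul u : Kˣ)) : ℂ_[p])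
  map_zero' := by simp [pOrd_eq (p := p) FA.GrossRegulator.near_one]
  map_add' u v := by
    obtain ⟨a, b, ha⟩ := exists_near ι (Additive.toMul u)
    obtain ⟨c, d, hc⟩ := exists_near ι (Additive.toMul v)
    rw [toMul_add, Units.val_mul, map_mul, pOrd_eq (iwasawaLog_mul ha hc).1, pOrd_eq ha,
      pOrd_eq hc, ← Rat.cast_add]
    congr 1
    have ha0 : (a : ℚ) ≠ 0 := Nat.cast_ne_zero.2 ha.1.ne'
    have hc0 : (c : ℚ) ≠ 0 := Nat.cast_ne_zero.2 hc.1.ne'
    push_cast
    field_simp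
    ring

theorem ordHom_apply (ι : K →+* ℂ_[p]) (u : Kˣ) :
    ordHom ι (Additive.ofMul u) = (pOrd p (ι u) : ℂ_[p]) := rfl

/-- A homomorphism to `ℂ_p` kills the elements of finite order. -/
theorem map_eq_zero_of_isOfFinOrder (Φ : Additive Kˣ →+ ℂ_[p]) {z : Kˣ} (h : IsOfFinOrder z) :
    Φ (Additive.ofMul z) = 0 := by
  obtain ⟨n, hn, he⟩ := isOfFinOrder_iff_pow_eq_one.1 h
  have h1 : n • Φ (Additive.ofMul z) = 0 := by
    rw [← map_nsmul, ← ofMul_pow, he, ofMul_one, map_zero]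
  rw [nsmul_eq_mul] at h1
  exact (mul_eq_zero.1 h1).resolve_left (Nat.cast_ne_zero.2 hn.ne')

/-- The sum over the conjugates weighted by a character. -/
def charPart (χ : Gal(K/ℚ) →* ℂ_[p]) (Φ : Additive Kˣ →+ ℂ_[p]) (u : Kˣ) : ℂ_[p] :=
  ∑ σ, χ σ * Φ (Additive.ofMul (gAct σ u))

/-- It kills the elements of finite order and is additive. -/
theorem charPart_div (χ : Gal(K/ℚ) →* ℂ_[p]) (Φ : Additive Kˣ →+ ℂ_[p]) (u v : Kˣ) :
    charPart χ Φ (u / v) = charPart χ Φ u - charPart χ Φ v := by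
  simp only [charPart, map_div, ofMul_div, map_sub, mul_sub, sum_sub_distrib]

variable [IsAbelianGalois ℚ K] [IsCMField K] (ι : K →+* ℂ_[p])

theorem charPart_gAct (χ : Gal(K/ℚ) →* ℂ_[p]) (Φ : Additive Kˣ →+ ℂ_[p]) (g : Gal(K/ℚ))
    (u : Kˣ) : charPart χ Φ (gAct g u) = χ g⁻¹ * charPart χ Φ u := by
  simp only [charPart, mul_sum, ← gAct_mul]
  rw [← Equiv.sum_comp (Equiv.mulRight g⁻¹)]
  refine sum_congr rfl fun σ _ => ?_
  rw [Equiv.coe_mulRight, inv_mul_cancel_right, map_mul]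
  ring

/-- **Everything comes from the basic unit.** -/
theorem charPart_eq (B : Basic ι) (χ : Gal(K/ℚ) →* ℂ_[p]) (Φ : Additive Kˣ →+ ℂ_[p]) {u : Kˣ}
    (hu : u ∈ minusPUnits p K) :
    ((2 * (stabSet ι).card * B.h : ℕ) : ℂ_[p]) * charPart χ Φ u =
      (∑ g, (B.kVec u g⁻¹ : ℂ_[p]) * χ g⁻¹) * charPart χ Φ B.u₀ := by
  have hfin := B.isOfFinOrder_div hu
  have h0 : charPart χ Φ (u ^ (2 * (stabSet ι).card * B.h) /
      ∏ g, gAct g B.u₀ ^ B.kVec u g⁻¹) = 0 :=
    sum_eq_zero fun σ _ => by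
      rw [map_eq_zero_of_isOfFinOrder Φ ((gAct σ).isOfFinOrder hfin), mul_zero]
  rw [charPart_div, sub_eq_zero] at h0
  rw [sum_mul]
  refine Eq.trans ?_ (h0.trans ?_)
  · simp only [charPart, map_pow, ofMul_pow, map_nsmul, nsmul_eq_mul, mul_sum]
    exact sum_congr rfl fun σ _ => by ring
  · simp only [mul_assoc, ← charPart_gAct]
    simp only [charPart, map_prod, map_zpow, ofMul_prod, ofMul_zpow, map_sum, map_zsmul,
      zsmul_eq_mul, mul_sum]
    rw [Finset.sum_comm]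
    exact sum_congr rfl fun g _ => sum_congr rfl fun σ _ => by ring

include ι in
/-- **Proportionality.** -/
theorem cross_eq (χ : Gal(K/ℚ) →* ℂ_[p]) (Φ Ψ : Additive Kˣ →+ ℂ_[p]) {u w : Kˣ}
    (hu : u ∈ minusPUnits p K) (hw : w ∈ minusPUnits p K) :
    charPart χ Φ u * charPart χ Ψ w = charPart χ Ψ u * charPart χ Φ w := by
  obtain ⟨B⟩ := nonempty_basic ι
  have hN : ((2 * (stabSet ι).card * B.h : ℕ) : ℂ_[p]) ≠ 0 :=
    Nat.cast_ne_zero.2 (Nat.mul_pos (Nat.mul_pos two_pos (card_stabSet_pos ι)) B.h_pos).ne'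
  refine mul_left_cancel₀ (mul_ne_zero hN hN) ?_
  rw [mul_mul_mul_comm, charPart_eq ι B χ Φ hu, charPart_eq ι B χ Ψ hw,
    mul_mul_mul_comm _ _ (charPart χ Ψ u),
    charPart_eq ι B χ Ψ hu, charPart_eq ι B χ Φ hw]
  ring

end FA.GrossStark
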